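import Fermat.Agent.DoublyMetric.StrongLaw
import Fermat.Agent.KhintchineGroshev.Independence

/-!
# The doubly metric inhomogeneous theorem

For `q ≠ r` the homomorphism `(a, γ) ↦ (q a - γ, r a - γ)` of the torus is surjective, so it
preserves Haar measure and the events `‖q a - γ‖ < ψ q` are pairwise independent.
-/

set_option autoImplicit false

noncomputable section

open Finset MeasureTheory Metric Filter
open scoped Topology ENNReal

namespace FA.DoublyMetric

open FA.KhintchineGroshev (Torus)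

variable {d : ℕ}

/-- The homomorphism `(a, γ) ↦ (q a - γ, r a - γ)`. -/
def pairHom (d q r : ℕ) : Torus d × Torus d →+ Torus d × Torus d :=
  (q • AddMonoidHom.fst (Torus d) (Torus d) - AddMonoidHom.snd (Torus d) (Torus d)).prod
    (r • AddMonoidHom.fst (Torus d) (Torus d) - AddMonoidHom.snd (Torus d) (Torus d))

theorem pairHom_apply (q r : ℕ) (w : Torus d × Torus d) :
    pairHom d q r w = (q • w.1 - w.2, r • w.1 - w.2) := rfl

theorem measurePreserving_pairHom {q r : ℕ} (h : q ≠ r) :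
    MeasurePreserving (pairHom d q r) (volume : Measure (Torus d × Torus d)) volume := by
  have : ((volume : Measure (Torus d)).prod (volume : Measure (Torus d))).IsAddHaarMeasure :=
    Measure.prod.instIsAddHaarMeasure _ _
  rw [Measure.volume_eq_prod]
  refine AddMonoidHom.measurePreserving ?_ ?_ rfl
  · exact (((continuous_nsmul q).comp continuous_fst).sub continuous_snd).prodMk
      (((continuous_nsmul r).comp continuous_fst).sub continuous_snd)
  rintro ⟨u, v⟩
  have hsec : ∀ z : UnitAddCircle, ∃ x : ℝ, (x : UnitAddCircle) = z := fun z =>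
    QuotientAddGroup.mk_surjective z
  choose U hU using fun i => hsec (u i)
  choose V hV using fun i => hsec (v i)
  have hqr : (q : ℝ) - r ≠ 0 := sub_ne_zero.2 (by exact_mod_cast h)
  refine ⟨(fun i => (((U i - V i) / ((q : ℝ) - r) : ℝ) : UnitAddCircle),
    fun i => (((q : ℝ) * ((U i - V i) / ((q : ℝ) - r)) - U i : ℝ) : UnitAddCircle)), ?_⟩
  rw [pairHom_apply]
  refine Prod.ext (funext fun i => ?_) (funext fun i => ?_)
  · simp only [Pi.sub_apply, Pi.smul_apply]
    rw [← hU i, ← AddCircle.coe_nsmul, ← AddCircle.coe_sub, nsmul_eq_mul, sub_sub_cancel]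
  · simp only [Pi.sub_apply, Pi.smul_apply]
    rw [← hV i, ← AddCircle.coe_nsmul, ← AddCircle.coe_sub, nsmul_eq_mul]
    congr 1
    field_simp
    ring

/-- The event of the denominator `q`. -/
def target (d : ℕ) (ψ : ℕ → ℝ) (q : ℕ) : Set (Torus d × Torus d) :=
  {w | ∀ i, ‖q • w.1 i - w.2 i‖ < ψ q}

/-- The cube. -/
def cube (d : ℕ) (t : ℝ) : Set (Torus d) := Set.univ.pi fun _ => ball 0 t

theorem measurableSet_cube (t : ℝ) : MeasurableSet (cube d t) :=
  MeasurableSet.univ_pi fun _ => measurableSet_ball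

theorem measureReal_cube {t : ℝ} (h0 : 0 ≤ t) (h1 : t ≤ 1 / 2) :
    (volume : Measure (Torus d)).real (cube d t) = (2 * t) ^ d := by
  rw [Measure.real, cube, volume_pi, Measure.pi_pi, ENNReal.toReal_prod]
  simp only [← Measure.real.eq_def, FA.KhintchineGroshev.measureReal_ball_zero h0 h1, prod_const,
    card_univ, Fintype.card_fin]

theorem target_eq_preimage (ψ : ℕ → ℝ) (q r : ℕ) :
    target d ψ q = pairHom d q r ⁻¹' (cube d (ψ q) ×ˢ Set.univ) := by
  ext w
  simp [target, cube, pairHom_apply]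

theorem target_inter_eq_preimage (ψ : ℕ → ℝ) (q r : ℕ) :
    target d ψ q ∩ target d ψ r = pairHom d q r ⁻¹' (cube d (ψ q) ×ˢ cube d (ψ r)) := by
  ext w
  simp [target, cube, pairHom_apply]

theorem measurableSet_target (ψ : ℕ → ℝ) (q : ℕ) : MeasurableSet (target d ψ q) := by
  rw [target_eq_preimage ψ q (q + 1)]
  exact (measurePreserving_pairHom (by omega)).measurable
    ((measurableSet_cube _).prod MeasurableSet.univ)

theorem measureReal_target {ψ : ℕ → ℝ} {q : ℕ} (h0 : 0 ≤ ψ q) (h1 : ψ q ≤ 1 / 2) :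
    (volume : Measure (Torus d × Torus d)).real (target d ψ q) = (2 * ψ q) ^ d := by
  rw [target_eq_preimage ψ q (q + 1), Measure.real,
    (measurePreserving_pairHom (by omega)).measure_preimage
      ((measurableSet_cube _).prod MeasurableSet.univ).nullMeasurableSet, ← Measure.real,
    Measure.volume_eq_prod, measureReal_prod_prod, measureReal_cube h0 h1, probReal_univ, mul_one]

theorem measureReal_target_inter {ψ : ℕ → ℝ} {q r : ℕ} (hqr : q ≠ r) (h0 : 0 ≤ ψ q)
    (h1 : ψ q ≤ 1 / 2) (h0' : 0 ≤ ψ r) (h1' : ψ r ≤ 1 / 2) :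
    (volume : Measure (Torus d × Torus d)).real (target d ψ q ∩ target d ψ r) =
      (2 * ψ q) ^ d * (2 * ψ r) ^ d := by
  rw [target_inter_eq_preimage, Measure.real, (measurePreserving_pairHom hqr).measure_preimage
      ((measurableSet_cube _).prod (measurableSet_cube _)).nullMeasurableSet, ← Measure.real,
    Measure.volume_eq_prod, measureReal_prod_prod, measureReal_cube h0 h1,
    measureReal_cube h0' h1']

/-- A property of almost every point of the torus holds almost everywhere on the space. -/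
theorem ae_real_pair {P : Torus d × Torus d → Prop} (h : ∀ᵐ w : Torus d × Torus d, P w) :
    ∀ᵐ z : (Fin d → ℝ) × (Fin d → ℝ),
      P (fun i => (z.1 i : UnitAddCircle), fun i => (z.2 i : UnitAddCircle)) := by
  set box : (Fin d → ℤ) → Set (Fin d → ℝ) := fun n =>
    Set.univ.pi fun i => Set.Ioc (n i : ℝ) (n i + 1) with hbox
  have hmp : ∀ n, MeasurePreserving (fun (x : Fin d → ℝ) i => (x i : UnitAddCircle))
      ((volume : Measure (Fin d → ℝ)).restrict (box n)) (volume : Measure (Torus d)) := fun n => by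
    rw [volume_pi, hbox, Measure.restrict_pi_pi]
    exact measurePreserving_pi _ _ fun i => UnitAddCircle.measurePreserving_mk (n i : ℝ)
  rw [Measure.volume_eq_prod] at h ⊢
  have h1 : ∀ n m, ∀ᵐ z ∂((volume : Measure (Fin d → ℝ)).prod (volume : Measure (Fin d → ℝ))),
      z ∈ box n ×ˢ box m →
        P (fun i => (z.1 i : UnitAddCircle), fun i => (z.2 i : UnitAddCircle)) := fun n m => by
    rw [← ae_restrict_iff' ((MeasurableSet.univ_pi fun i => measurableSet_Ioc).prod
      (MeasurableSet.univ_pi fun i => measurableSet_Ioc)), ← Measure.prod_restrict]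
    exact ((hmp n).prod (hmp m)).quasiMeasurePreserving.ae h
  filter_upwards [ae_all_iff.2 fun n => ae_all_iff.2 (h1 n)] with z hz
  refine hz (fun i => ⌈z.1 i⌉ - 1) (fun i => ⌈z.2 i⌉ - 1)
    ⟨fun i _ => ⟨?_, ?_⟩, fun i _ => ⟨?_, ?_⟩⟩ <;> push_cast <;>
    linarith [Int.ceil_lt_add_one (z.1 i), Int.le_ceil (z.1 i), Int.ceil_lt_add_one (z.2 i),
      Int.le_ceil (z.2 i)]

theorem setOf_mem_target (ψ : ℕ → ℝ) (z : (Fin d → ℝ) × (Fin d → ℝ)) :
    {q : ℕ | ∃ p : Fin d → ℤ, ∀ i, |(q : ℝ) * z.1 i - p i - z.2 i| < ψ q} =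
      {q : ℕ | (((fun i => (z.1 i : UnitAddCircle)), fun i => (z.2 i : UnitAddCircle)) :
        Torus d × Torus d) ∈ target d ψ q} := by
  ext q
  simp only [target, Set.mem_ofPred_eq, ← AddCircle.coe_nsmul, ← AddCircle.coe_sub, nsmul_eq_mul]
  have e : ∀ u : ℝ, ‖(u : UnitAddCircle)‖ = |u - round u| := fun u => by
    rw [AddCircle.norm_eq]
    simp
  simp only [e]
  refine ⟨fun ⟨p, hp⟩ i => (round_le _ (p i)).trans_lt ?_,
    fun h => ⟨fun i => round ((q : ℝ) * z.1 i - z.2 i), fun i => ?_⟩⟩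
  · rw [sub_right_comm]
    exact hp i
  · rw [sub_right_comm]
    exact h i

theorem sum_Icc_one (f : ℕ → ℝ) (N : ℕ) : ∑ q ∈ Icc 1 N, f q = ∑ j ∈ range N, f (j + 1) := by
  induction N with
  | zero => simp
  | succ N ih => rw [sum_Icc_succ_top (by omega), sum_range_succ, ih]

/-- **The strong law.** -/
theorem ae_tendsto_count {ψ : ℕ → ℝ} (h0 : ∀ q, 0 ≤ ψ q) (h1 : ∀ q, ψ q ≤ 1 / 2)
    (hdiv : ¬Summable fun q => ψ q ^ d) :
    ∀ᵐ z : (Fin d → ℝ) × (Fin d → ℝ), Tendsto (fun N : ℕ =>
      ((Set.Icc 1 N ∩ {q : ℕ | ∃ p : Fin d → ℤ,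
        ∀ i, |(q : ℝ) * z.1 i - p i - z.2 i| < ψ q}).ncard : ℝ) /
        ∑ q ∈ Icc 1 N, (2 * ψ q) ^ d) atTop (𝓝 1) := by
  have hexp : expected (volume : Measure (Torus d × Torus d)) (target d ψ) =
      fun N => ∑ q ∈ Icc 1 N, (2 * ψ q) ^ d :=
    funext fun N => sum_congr rfl fun q _ => measureReal_target (h0 q) (h1 q)
  have hdiv' : Tendsto (expected (volume : Measure (Torus d × Torus d)) (target d ψ))
      atTop atTop := by
    rw [hexp]
    have hn : ¬Summable fun j => (2 * ψ (j + 1)) ^ d := fun hs => hdiv <| by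
      refine (summable_nat_add_iff 1).1 ?_
      simp only [mul_pow] at hs
      exact (summable_mul_left_iff (by positivity)).1 hs
    refine ((not_summable_iff_tendsto_nat_atTop_of_nonneg
      fun j => pow_nonneg (mul_nonneg zero_le_two (h0 _)) d).1 hn).congr fun N => ?_
    exact (sum_Icc_one (fun q => (2 * ψ q) ^ d) N).symm
  have h := ae_real_pair (ae_tendsto_ratio (μ := (volume : Measure (Torus d × Torus d)))
    (measurableSet_target ψ) (fun q r _ _ hqr => by
      rw [measureReal_target_inter hqr (h0 q) (h1 q) (h0 r) (h1 r),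
        measureReal_target (h0 q) (h1 q), measureReal_target (h0 r) (h1 r)]) hdiv')
  filter_upwards [h] with z hz
  simp only [setOf_mem_target, ← hits_eq_ncard]
  rw [hexp] at hz
  exact hz

/-- **Divergence.** -/
theorem ae_infinite {ψ : ℕ → ℝ} (h0 : ∀ q, 0 ≤ ψ q) (hdiv : ¬Summable fun q => ψ q ^ d) :
    ∀ᵐ z : (Fin d → ℝ) × (Fin d → ℝ),
      {q : ℕ | ∃ p : Fin d → ℤ, ∀ i, |(q : ℝ) * z.1 i - p i - z.2 i| < ψ q}.Infinite := by
  set g : ℕ → ℝ := fun q => min (ψ q) (1 / 2) with hg
  have hg0 : ∀ q, 0 ≤ g q := fun q => le_min (h0 q) (by norm_num)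
  have hg1 : ∀ q, g q ≤ 1 / 2 := fun q => min_le_right _ _
  have hgd : ¬Summable fun q => g q ^ d := fun hs => hdiv <| by
    refine Summable.of_norm_bounded_eventually hs ?_
    rw [Nat.cofinite_eq_atTop]
    filter_upwards [hs.tendsto_atTop_zero.eventually_lt_const
      (show (0 : ℝ) < (1 / 2) ^ d by positivity)] with q hq
    rw [Real.norm_eq_abs, abs_of_nonneg (pow_nonneg (h0 q) d)]
    rcases le_total (ψ q) (1 / 2) with h | h
    · simp only [hg, min_eq_left h, le_refl]
    · simp only [hg, min_eq_right h] at hq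
      exact absurd hq (lt_irrefl _)
  filter_upwards [ae_tendsto_count hg0 hg1 hgd] with z hz hfin
  obtain ⟨M, hM⟩ := hfin.bddAbove
  have hm : Tendsto (fun N : ℕ => ∑ q ∈ Icc 1 N, (2 * g q) ^ d) atTop atTop := by
    have hn : ¬Summable fun j => (2 * g (j + 1)) ^ d := fun hs => hgd <| by
      refine (summable_nat_add_iff 1).1 ?_
      simp only [mul_pow] at hs
      exact (summable_mul_left_iff (by positivity)).1 hs
    refine ((not_summable_iff_tendsto_nat_atTop_of_nonneg
      fun j => pow_nonneg (mul_nonneg zero_le_two (hg0 _)) d).1 hn).congr fun N => ?_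
    exact (sum_Icc_one (fun q => (2 * g q) ^ d) N).symm
  obtain ⟨N, hN, hN'⟩ := ((hz.eventually (lt_mem_nhds (show (1 / 2 : ℝ) < 1 by norm_num))).and
    (hm.eventually_gt_atTop (2 * (M : ℝ) + 1))).exists
  have hcard : ((Set.Icc 1 N ∩ {q : ℕ | ∃ p : Fin d → ℤ,
      ∀ i, |(q : ℝ) * z.1 i - p i - z.2 i| < g q}).ncard : ℝ) ≤ M := by
    refine Nat.cast_le.2 ((Set.ncard_le_ncard (t := Set.Icc 1 M) ?_).trans (le_of_eq ?_))
    · rintro q ⟨hq, p, hp⟩
      exact ⟨hq.1, hM ⟨p, fun i => (hp i).trans_le (min_le_left _ _)⟩⟩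
    · rw [← Finset.coe_Icc, Set.ncard_coe_finset, Nat.card_Icc, Nat.add_sub_cancel]
  rw [lt_div_iff₀ (by linarith [(Nat.cast_nonneg M : (0 : ℝ) ≤ M)])] at hN
  linarith

/-- **Convergence.** -/
theorem ae_finite {ψ : ℕ → ℝ} (h0 : ∀ q, 0 ≤ ψ q) (hs : Summable fun q => ψ q ^ d) :
    ∀ᵐ z : (Fin d → ℝ) × (Fin d → ℝ),
      {q : ℕ | ∃ p : Fin d → ℤ, ∀ i, |(q : ℝ) * z.1 i - p i - z.2 i| < ψ q}.Finite := by
  have hμ : ∀ q, (volume : Measure (Torus d × Torus d)) (target d ψ q) ≤
      ENNReal.ofReal ((2 * ψ q) ^ d) := fun q => by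
    rw [target_eq_preimage ψ q (q + 1), (measurePreserving_pairHom (by omega)).measure_preimage
      ((measurableSet_cube _).prod MeasurableSet.univ).nullMeasurableSet, Measure.volume_eq_prod,
      Measure.prod_prod, measure_univ, mul_one, cube, volume_pi, Measure.pi_pi, prod_const,
      card_univ, Fintype.card_fin, ENNReal.ofReal_pow (mul_nonneg two_pos.le (h0 q))]
    refine pow_le_pow_left₀ zero_le ((measure_mono ball_subset_closedBall).trans ?_) d
    rw [AddCircle.volume_closedBall]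
    exact ENNReal.ofReal_le_ofReal (min_le_right _ _)
  have hsum : ∑' q, (volume : Measure (Torus d × Torus d)) (target d ψ q) ≠ ⊤ := by
    refine ne_top_of_le_ne_top ?_ (ENNReal.tsum_le_tsum hμ)
    rw [← ENNReal.ofReal_tsum_of_nonneg (fun q => by have := h0 q; positivity)]
    · exact ENNReal.ofReal_ne_top
    · simpa only [mul_pow] using hs.mul_left ((2 : ℝ) ^ d)
  filter_upwards [ae_real_pair (ae_eventually_notMem hsum)] with z hz
  obtain ⟨Q, hQ⟩ := eventually_atTop.1 hz
  rw [setOf_mem_target]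
  refine (range Q).finite_toSet.subset fun q hq => ?_
  rw [mem_coe, mem_range]
  exact not_le.1 fun hc => hQ q hc hq

end FA.DoublyMetric
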