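import Mathlib.MeasureTheory.Integral.Bochner.Set
import Mathlib.MeasureTheory.Constructions.Polish.Basic
import Mathlib.Analysis.PSeries
import Mathlib.Tactic

/-!
# The strong law for pairwise independent events

If the events are pairwise independent and the sum `m N` of the first `N` probabilities tends to
infinity, the number of them that occur is almost surely asymptotic to `m N`: the variance is at
most `m N`, so along the first `N` with `m N ≥ k ^ 2` the squares of the relative errors have a
finite sum, and in between the count is monotone.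
-/

set_option autoImplicit false

noncomputable section

open Finset MeasureTheory Filter
open scoped Topology ENNReal

namespace FA.DoublyMetric

variable {α : Type*} [MeasurableSpace α] {μ : Measure α} [IsProbabilityMeasure μ]
  {A : ℕ → Set α}

/-- The number of the first `N` events that occur. -/
def hits (A : ℕ → Set α) (N : ℕ) (x : α) : ℝ :=
  ∑ q ∈ Icc 1 N, (A q).indicator (fun _ => (1 : ℝ)) x

/-- The sum of the first `N` probabilities. -/
def expected (μ : Measure α) (A : ℕ → Set α) (N : ℕ) : ℝ := ∑ q ∈ Icc 1 N, μ.real (A q)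

omit [MeasurableSpace α] in
theorem hits_eq_ncard (A : ℕ → Set α) (N : ℕ) (x : α) :
    hits A N x = ((Set.Icc 1 N ∩ {q | x ∈ A q}).ncard : ℝ) := by
  classical
  rw [hits, show Set.Icc 1 N ∩ {q | x ∈ A q} = ↑((Icc 1 N).filter fun q => x ∈ A q) by
    ext q; simp, Set.ncard_coe_finset, ← sum_boole]
  exact sum_congr rfl fun q _ => Set.indicator_apply _ _ _

omit [MeasurableSpace α] in
theorem monotone_hits (A : ℕ → Set α) (x : α) : Monotone fun N => hits A N x := fun _ _ h =>
  sum_le_sum_of_subset_of_nonneg (Icc_subset_Icc le_rfl h) fun _ _ _ =>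
    Set.indicator_nonneg (fun _ _ => zero_le_one) _

omit [IsProbabilityMeasure μ] in
theorem monotone_expected (A : ℕ → Set α) : Monotone (expected μ A) := fun _ _ h =>
  sum_le_sum_of_subset_of_nonneg (Icc_subset_Icc le_rfl h) fun _ _ _ => measureReal_nonneg

theorem measurable_hits (hA : ∀ q, MeasurableSet (A q)) (N : ℕ) : Measurable (hits A N) :=
  Finset.measurable_sum _ fun q _ => measurable_const.indicator (hA q)

theorem integrable_sq (hA : ∀ q, MeasurableSet (A q)) (N : ℕ) (c : ℝ) :
    Integrable (fun x => (hits A N x - c) ^ 2) μ := by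
  refine Integrable.of_bound (((measurable_hits hA N).sub_const c).pow_const 2).aestronglyMeasurable
    (((N : ℝ) + |c|) ^ 2) (Eventually.of_forall fun x => ?_)
  rw [Real.norm_eq_abs, abs_pow]
  refine pow_le_pow_left₀ (abs_nonneg _) ((abs_sub _ _).trans (add_le_add_left ?_ _)) 2
  rw [abs_of_nonneg (sum_nonneg fun q _ => Set.indicator_nonneg (fun _ _ => zero_le_one) _)]
  refine (sum_le_sum (g := fun _ => (1 : ℝ)) fun q _ => ?_).trans (le_of_eq (by simp))
  exact Set.indicator_le_self' (fun _ _ => zero_le_one) _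

/-- **The variance.** -/
theorem integral_sq_le (hA : ∀ q, MeasurableSet (A q))
    (hind : ∀ q r, 1 ≤ q → 1 ≤ r → q ≠ r → μ.real (A q ∩ A r) = μ.real (A q) * μ.real (A r))
    (N : ℕ) : ∫ x, (hits A N x - expected μ A N) ^ 2 ∂μ ≤ expected μ A N := by
  set f : ℕ → α → ℝ := fun q x => (A q).indicator (fun _ => (1 : ℝ)) x - μ.real (A q) with hf
  have hI : ∀ q, Integrable ((A q).indicator fun _ => (1 : ℝ)) μ := fun q =>
    (integrable_const 1).indicator (hA q)
  have hprod : ∀ q r x, f q x * f r x = (A q ∩ A r).indicator (fun _ => (1 : ℝ)) x -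
      μ.real (A r) * (A q).indicator (fun _ => (1 : ℝ)) x -
      μ.real (A q) * (A r).indicator (fun _ => (1 : ℝ)) x + μ.real (A q) * μ.real (A r) := by
    intro q r x
    simp only [hf]
    by_cases h1 : x ∈ A q <;> by_cases h2 : x ∈ A r <;> simp [h1, h2] <;> ring
  have hIi : ∀ q r, Integrable ((A q ∩ A r).indicator fun _ => (1 : ℝ)) μ := fun q r =>
    (integrable_const 1).indicator ((hA q).inter (hA r))
  have hint : ∀ q r, Integrable (fun x => f q x * f r x) μ := fun q r => by
    simp only [hprod]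
    exact (((hIi q r).sub ((hI q).const_mul _)).sub ((hI r).const_mul _)).add (integrable_const _)
  have hval : ∀ q r, ∫ x, f q x * f r x ∂μ =
      μ.real (A q ∩ A r) - μ.real (A q) * μ.real (A r) := fun q r => by
    simp only [hprod]
    have h1 : Integrable (fun x => (A q ∩ A r).indicator (fun _ => (1 : ℝ)) x -
        μ.real (A r) * (A q).indicator (fun _ => (1 : ℝ)) x) μ :=
      (hIi q r).sub ((hI q).const_mul _)
    have h2 : Integrable (fun x => (A q ∩ A r).indicator (fun _ => (1 : ℝ)) x -
        μ.real (A r) * (A q).indicator (fun _ => (1 : ℝ)) x -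
        μ.real (A q) * (A r).indicator (fun _ => (1 : ℝ)) x) μ := h1.sub ((hI r).const_mul _)
    rw [integral_add h2 (integrable_const _), integral_sub h1 ((hI r).const_mul _),
      integral_sub (hIi q r) ((hI q).const_mul _), integral_const_mul, integral_const_mul,
      integral_indicator_const _ ((hA q).inter (hA r)), integral_indicator_const _ (hA q),
      integral_indicator_const _ (hA r), integral_const, probReal_univ]
    simp only [smul_eq_mul, mul_one, one_mul]
    ring
  have e : ∀ x, (hits A N x - expected μ A N) ^ 2 =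
      ∑ q ∈ Icc 1 N, ∑ r ∈ Icc 1 N, f q x * f r x := fun x => by
    rw [← sum_mul_sum, ← sq, hf, hits, expected, sum_sub_distrib]
  simp only [e]
  rw [integral_finsetSum _ fun q _ => integrable_finsetSum _ fun r _ => hint q r, expected]
  refine sum_le_sum fun q hq => ?_
  rw [integral_finsetSum _ fun r _ => hint q r, sum_eq_single_of_mem q hq]
  · rw [hval, Set.inter_self]
    nlinarith [mul_self_nonneg (μ.real (A q))]
  · intro r hr hrq
    rw [hval, hind q r (mem_Icc.1 hq).1 (mem_Icc.1 hr).1 hrq.symm, sub_self]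

/-- **The strong law.** -/
theorem ae_tendsto_ratio (hA : ∀ q, MeasurableSet (A q))
    (hind : ∀ q r, 1 ≤ q → 1 ≤ r → q ≠ r → μ.real (A q ∩ A r) = μ.real (A q) * μ.real (A r))
    (hdiv : Tendsto (expected μ A) atTop atTop) :
    ∀ᵐ x ∂μ, Tendsto (fun N => hits A N x / expected μ A N) atTop (𝓝 1) := by
  set m := expected μ A with hm
  have hex : ∀ k : ℕ, ∃ N, (k : ℝ) ^ 2 ≤ m N := fun k =>
    ((hdiv.eventually_ge_atTop _).exists)
  set n : ℕ → ℕ := fun k => Nat.find (hex k) with hn
  have hlow : ∀ k : ℕ, (k : ℝ) ^ 2 ≤ m (n k) := fun k => Nat.find_spec (hex k)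
  have hup : ∀ k : ℕ, m (n k) ≤ (k : ℝ) ^ 2 + 1 := fun k => by
    rcases Nat.eq_zero_or_pos (n k) with h0 | h0
    · rw [h0]
      simp [hm, expected]
      positivity
    · obtain ⟨j, hj⟩ : ∃ j, n k = j + 1 := ⟨n k - 1, by omega⟩
      have hlt : m j < (k : ℝ) ^ 2 := not_le.1 (Nat.find_min (hex k) (by
        change j < n k
        omega))
      rw [hj, hm, expected, sum_Icc_succ_top (by omega)]
      have h1 : μ.real (A (j + 1)) ≤ 1 := measureReal_le_one
      rw [hm, expected] at hlt
      linarith
  set g : ℕ → α → ℝ := fun k x => ((hits A (n k) x - m (n k)) / m (n k)) ^ 2 with hg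
  have hgint : ∀ k, ∫ x, g k x ∂μ ≤ 1 / (k : ℝ) ^ 2 := fun k => by
    rcases Nat.eq_zero_or_pos k with rfl | hk
    · have : n 0 = 0 := (Nat.find_eq_zero _).2 (by simp [hm, expected])
      simp [hg, this, hm, expected, hits]
    have hk' : (0 : ℝ) < k := Nat.cast_pos.2 hk
    have hpos : 0 < m (n k) := lt_of_lt_of_le (by positivity) (hlow k)
    simp only [hg, div_pow]
    rw [integral_div, div_le_div_iff₀ (by positivity) (by positivity), one_mul]
    calc (∫ x, (hits A (n k) x - m (n k)) ^ 2 ∂μ) * (k : ℝ) ^ 2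
        ≤ m (n k) * m (n k) := mul_le_mul (integral_sq_le hA hind (n k)) (hlow k) (by positivity)
          hpos.le
      _ = _ := by ring
  have hgI : ∀ k, Integrable (g k) μ := fun k => by
    simp only [hg, div_pow]
    exact (integrable_sq hA _ _).div_const _
  have hgm : ∀ k, Measurable fun x => ENNReal.ofReal (g k x) := fun k =>
    ENNReal.measurable_ofReal.comp
      ((((measurable_hits hA _).sub_const _).div_const _).pow_const _)
  have hfin : ∫⁻ x, ∑' k, ENNReal.ofReal (g k x) ∂μ ≠ ⊤ := by
    rw [lintegral_tsum fun k => (hgm k).aemeasurable]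
    refine ne_top_of_le_ne_top (ENNReal.ofReal_tsum_of_nonneg (f := fun k : ℕ => 1 / (k : ℝ) ^ 2)
      (fun k => by positivity) (Real.summable_one_div_nat_pow.2 one_lt_two) ▸
        ENNReal.ofReal_ne_top) (ENNReal.tsum_le_tsum fun k => ?_)
    rw [← ofReal_integral_eq_lintegral_ofReal (hgI k) (Eventually.of_forall fun x => sq_nonneg _)]
    exact ENNReal.ofReal_le_ofReal (hgint k)
  filter_upwards [ae_lt_top (Measurable.tsum hgm) hfin] with x hx
  have hs : Summable fun k => g k x := (ENNReal.summable_toReal hx.ne).congr fun k =>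
    ENNReal.toReal_ofReal (sq_nonneg _)
  have hratio : Tendsto (fun k => hits A (n k) x / m (n k)) atTop (𝓝 1) := by
    have h0 : Tendsto (fun k => hits A (n k) x / m (n k) - 1) atTop (𝓝 0) := by
      refine (tendsto_zero_iff_abs_tendsto_zero _).2 ?_
      have h := hs.tendsto_atTop_zero.sqrt
      rw [Real.sqrt_zero] at h
      refine h.congr' ?_
      filter_upwards [eventually_ge_atTop 1] with k hk
      have hpos : 0 < m (n k) := lt_of_lt_of_le (by positivity) (hlow k)
      simp only [hg, Real.sqrt_sq_eq_abs, Function.comp_apply, sub_div, div_self hpos.ne']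
    simpa using h0.add_const 1
  have hkN : Tendsto (fun N => Nat.sqrt ⌊m N⌋₊) atTop atTop := by
    refine (tendsto_atTop_atTop_of_monotone (fun a b h => Nat.sqrt_le_sqrt h) fun b =>
      ⟨b * b, (Nat.sqrt_eq b).ge⟩).comp (tendsto_nat_floor_atTop.comp hdiv)
  have hsucc : Tendsto (fun k : ℕ => k + 1) atTop atTop :=
    tendsto_atTop_mono (fun k => Nat.le_succ k) tendsto_id
  have hinv : Tendsto (fun k : ℕ => 1 / (k : ℝ)) atTop (𝓝 0) :=
    tendsto_const_div_atTop_nhds_zero_nat 1
  have hupper : Tendsto (fun k : ℕ => hits A (n (k + 1)) x / m (n (k + 1)) *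
      ((1 + 1 / (k : ℝ)) ^ 2 + (1 / (k : ℝ)) ^ 2)) atTop (𝓝 1) := by
    simpa using (hratio.comp hsucc).mul (((hinv.const_add 1).pow 2).add (hinv.pow 2))
  have hlower : Tendsto (fun k : ℕ => hits A (n k) x / m (n k) / (1 + 1 / (k : ℝ)) ^ 2) atTop
      (𝓝 1) := by
    simpa [Pi.div_def] using hratio.div ((hinv.const_add 1).pow 2) (by norm_num)
  refine tendsto_of_tendsto_of_tendsto_of_le_of_le' (hlower.comp hkN) (hupper.comp hkN) ?_ ?_
  all_goals
    filter_upwards [hdiv.eventually_ge_atTop 1] with N hN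
    simp only [Function.comp_apply]
    set k := Nat.sqrt ⌊m N⌋₊ with hk
    have hk1 : 1 ≤ k := Nat.le_sqrt.2 (Nat.le_floor (by simpa using hN))
    have hklo : (k : ℝ) ^ 2 ≤ m N := by
      have h1 : k * k ≤ ⌊m N⌋₊ := Nat.sqrt_le _
      have h2 : ((k * k : ℕ) : ℝ) ≤ m N := (Nat.cast_le.2 h1).trans (Nat.floor_le (by linarith))
      push_cast at h2
      linarith
    have hkhi : m N < ((k : ℝ) + 1) ^ 2 := by
      have h1 : ⌊m N⌋₊ < (k + 1) * (k + 1) := Nat.lt_succ_sqrt _
      have h2 := Nat.lt_of_floor_lt h1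
      push_cast at h2
      linarith
    have hk' : (0 : ℝ) < k := Nat.cast_pos.2 hk1
    have hpos : (0 : ℝ) < m N := by linarith
  · have hNk : n k ≤ N := Nat.find_min' (hex k) hklo
    have hm1 : 0 < m (n k) := lt_of_lt_of_le (by positivity) (hlow k)
    have hge := hlow k
    have hS : hits A (n k) x ≤ hits A N x := monotone_hits A x hNk
    have h0 : 0 ≤ hits A (n k) x :=
      sum_nonneg fun q _ => Set.indicator_nonneg (fun _ _ => zero_le_one) _
    have h1 : m N ≤ m (n k) * (1 + 1 / (k : ℝ)) ^ 2 := by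
      calc m N ≤ ((k : ℝ) + 1) ^ 2 := hkhi.le
        _ = (k : ℝ) ^ 2 * (1 + 1 / (k : ℝ)) ^ 2 := by field_simp
        _ ≤ _ := mul_le_mul_of_nonneg_right hge (by positivity)
    rw [div_div]
    exact div_le_div₀ (h0.trans hS) hS hpos h1
  · have hNk : N ≤ n (k + 1) := by
      by_contra hlt
      have := (hlow (k + 1)).trans (monotone_expected (μ := μ) A (not_le.1 hlt).le)
      push_cast at this
      linarith
    have hm1 : 0 < m (n (k + 1)) := lt_of_lt_of_le (by positivity) (hlow (k + 1))
    have hS : hits A N x ≤ hits A (n (k + 1)) x := monotone_hits A x hNk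
    have h0 : 0 ≤ hits A (n (k + 1)) x :=
      sum_nonneg fun q _ => Set.indicator_nonneg (fun _ _ => zero_le_one) _
    have h1 : m (n (k + 1)) ≤ m N * ((1 + 1 / (k : ℝ)) ^ 2 + (1 / (k : ℝ)) ^ 2) := by
      refine (hup (k + 1)).trans ?_
      push_cast
      calc ((k : ℝ) + 1) ^ 2 + 1 = (k : ℝ) ^ 2 * ((1 + 1 / (k : ℝ)) ^ 2 + (1 / (k : ℝ)) ^ 2) := by
            field_simp
        _ ≤ _ := mul_le_mul_of_nonneg_right hklo (by positivity)
    calc hits A N x / m N ≤ hits A (n (k + 1)) x / m N := div_le_div_of_nonneg_right hS hpos.le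
      _ = hits A (n (k + 1)) x / m (n (k + 1)) * (m (n (k + 1)) / m N) := by field_simp
      _ ≤ _ := mul_le_mul_of_nonneg_left ((div_le_iff₀ hpos).2 (by linarith))
          (div_nonneg h0 hm1.le)

end FA.DoublyMetric
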